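import Mathlib

set_option autoImplicit false

namespace Fermat.Agent.S11.PID11

open NumberField Polynomial Ideal Module InfinitePlace Nat Real IsCyclotomicExtension.Rat

section bound

variable (K : Type*) [Field K] [NumberField K] [IsCyclotomicExtension {11} ℚ K]

/-- The Minkowski bound of `ℚ(ζ₁₁)` is smaller than `67`. -/
theorem minkowski_lt :
    (4 / π) ^ nrComplexPlaces K *
      ((finrank ℚ K)! / (finrank ℚ K) ^ (finrank ℚ K) * √|(discr K : ℝ)|) < 67 := by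
  have : Fact (Nat.Prime 11) := ⟨by norm_num⟩
  rw [discr_prime 11 K, IsCyclotomicExtension.finrank (n := 11) K
    (cyclotomic.irreducible_rat (by simp)), nrComplexPlaces_eq_totient_div_two 11,
    totient_prime (by norm_num : Nat.Prime 11)]
  have hfact : ((11 - 1)! : ℕ) = 3628800 := by decide
  have h1 : (4 / π) ^ ((11 - 1) / 2) ≤ (4 / 3.14 : ℝ) ^ 5 := by
    have hpi : (3.14 : ℝ) < π := Real.pi_gt_d2
    have : (4 / π : ℝ) ≤ 4 / 3.14 := by
      apply div_le_div_of_nonneg_left (by norm_num) (by norm_num) hpi.le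
    exact pow_le_pow_left₀ (by positivity) this 5
  have h2 : √|(((-1 : ℤ) ^ ((11 - 1) / 2) * ((11 : ℕ) : ℤ) ^ (11 - 2) : ℤ) : ℝ)| ≤ 48561 := by
    rw [Real.sqrt_le_iff]
    refine ⟨by norm_num, ?_⟩
    norm_num
  rw [hfact]
  calc (4 / π) ^ ((11 - 1) / 2) * (((3628800 : ℕ) : ℝ) / ((11 - 1 : ℕ) : ℝ) ^ (11 - 1) *
          √|(((-1 : ℤ) ^ ((11 - 1) / 2) * ((11 : ℕ) : ℤ) ^ (11 - 2) : ℤ) : ℝ)|)
      ≤ (4 / 3.14 : ℝ) ^ 5 * (((3628800 : ℕ) : ℝ) / ((11 - 1 : ℕ) : ℝ) ^ (11 - 1) * 48561) := by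
        gcongr
    _ < 67 := by norm_num

end bound

section prime23

variable {K : Type*} [Field K] [NumberField K] [IsCyclotomicExtension {11} ℚ K]
  {ζ : K} (hζ : IsPrimitiveRoot ζ 11)

set_option linter.unusedSectionVars false

theorem minpoly_toInteger : minpoly ℤ hζ.toInteger = cyclotomic 11 ℤ := by
  rw [cyclotomic_eq_minpoly hζ (by norm_num), ← RingOfIntegers.minpoly_coe]
  rfl

theorem aeval_four_cyclotomic : aeval (4 : ZMod 23) (cyclotomic 11 ℤ) = 0 := by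
  have : Fact (Nat.Prime 11) := ⟨by norm_num⟩
  rw [cyclotomic_prime ℤ 11]
  simp only [map_sum, map_pow, aeval_X]
  decide

theorem aeval_four_minpoly_gen :
    aeval (4 : ZMod 23) (minpoly ℤ hζ.integralPowerBasis.gen) = 0 := by
  rw [hζ.integralPowerBasis_gen, minpoly_toInteger hζ, aeval_four_cyclotomic]

/-- The ring homomorphism `ℤ[ζ₁₁] → 𝔽₂₃` sending `ζ` to `4`. -/
noncomputable def toZMod23 : 𝓞 K →ₐ[ℤ] ZMod 23 :=
  hζ.integralPowerBasis.lift (4 : ZMod 23) (aeval_four_minpoly_gen hζ)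

theorem toZMod23_zeta : toZMod23 hζ hζ.toInteger = 4 := by
  have := hζ.integralPowerBasis.lift_gen (4 : ZMod 23) (aeval_four_minpoly_gen hζ)
  rw [hζ.integralPowerBasis_gen] at this
  exact this

theorem geom_sum_toInteger : ∑ i ∈ Finset.range 11, hζ.toInteger ^ i = 0 :=
  hζ.toInteger_isPrimitiveRoot.geom_sum_eq_zero (by norm_num)

theorem exists_int_sub_dvd (x : 𝓞 K) : ∃ n : ℤ, hζ.toInteger - 4 ∣ x - (n : 𝓞 K) := by
  obtain ⟨f, hf⟩ := hζ.integralPowerBasis.exists_eq_aeval' x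
  rw [hζ.integralPowerBasis_gen] at hf
  refine ⟨f.eval 4, ?_⟩
  have := sub_dvd_eval_sub hζ.toInteger 4 (f.map (algebraMap ℤ (𝓞 K)))
  rw [eval_map_algebraMap, ← hf] at this
  convert this using 2
  rw [eval_map, eval₂_at_ofNat]
  simp

/-- The element `1 + ζ + ζ³` of norm `23`. -/
noncomputable def alpha : 𝓞 K := 1 + hζ.toInteger + hζ.toInteger ^ 3

theorem alpha_dvd_23 : alpha hζ ∣ (23 : 𝓞 K) := by
  have h := geom_sum_toInteger hζ
  simp only [Finset.sum_range_succ, Finset.sum_range_zero] at h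
  set z := hζ.toInteger with hz
  refine ⟨-2 - 14 * z - 17 * z ^ 2 - 12 * z ^ 3 - 5 * z ^ 4 - 9 * z ^ 5 - 10 * z ^ 6 - 16 * z ^ 7
    - 6 * z ^ 8 - 15 * z ^ 9, ?_⟩
  rw [alpha, ← hz]
  linear_combination (-(-25 + 9 * z - 15 * z ^ 2)) * h

theorem alpha_dvd_zeta_sub_four : alpha hζ ∣ hζ.toInteger - 4 := by
  have h := geom_sum_toInteger hζ
  simp only [Finset.sum_range_succ, Finset.sum_range_zero] at h
  set z := hζ.toInteger with hz
  refine ⟨1 + 3 * z + 3 * z ^ 2 + 2 * z ^ 3 + z ^ 4 + 2 * z ^ 5 + 2 * z ^ 6 + 3 * z ^ 7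
    + z ^ 8 + 3 * z ^ 9, ?_⟩
  rw [alpha, ← hz]
  linear_combination (-(5 - 2 * z + 3 * z ^ 2)) * h

theorem toZMod23_alpha : toZMod23 hζ (alpha hζ) = 0 := by
  rw [alpha, map_add, map_add, map_pow, map_one, toZMod23_zeta]
  decide

theorem ker_toZMod23 : RingHom.ker (toZMod23 hζ : 𝓞 K →+* ZMod 23) = span {alpha hζ} := by
  apply le_antisymm
  · intro x hx
    rw [RingHom.mem_ker] at hx
    rw [mem_span_singleton]
    obtain ⟨n, hn⟩ := exists_int_sub_dvd hζ x
    have h1 : toZMod23 hζ (x - (n : 𝓞 K)) = 0 := by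
      obtain ⟨y, hy⟩ := hn
      rw [hy, map_mul, map_sub, toZMod23_zeta, map_ofNat, sub_self, zero_mul]
    have h2 : ((n : ℤ) : ZMod 23) = 0 := by
      have hx' : toZMod23 hζ x = 0 := hx
      rw [map_sub, hx', map_intCast, zero_sub, neg_eq_zero] at h1
      exact h1
    rw [ZMod.intCast_zmod_eq_zero_iff_dvd] at h2
    obtain ⟨m, rfl⟩ := h2
    have h3 : alpha hζ ∣ (((23 : ℕ) : ℤ) * m : ℤ) := by
      push_cast
      exact Dvd.dvd.mul_right (alpha_dvd_23 hζ) _
    have h4 := dvd_add ((alpha_dvd_zeta_sub_four hζ).trans hn) h3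
    rwa [sub_add_cancel] at h4
  · rw [span_singleton_le_iff_mem, RingHom.mem_ker]
    exact toZMod23_alpha hζ

include hζ in
theorem exists_principal_over_23 :
    ∃ P ∈ primesOver (span {((23 : ℕ) : ℤ)}) (𝓞 K), Submodule.IsPrincipal P := by
  have : Fact (Nat.Prime 23) := ⟨by norm_num⟩
  refine ⟨RingHom.ker (toZMod23 hζ : 𝓞 K →+* ZMod 23), ⟨RingHom.ker_isPrime _, ⟨?_⟩⟩, ?_⟩
  · rw [under_def, RingHom.comap_ker, ← ZMod.ker_intCastRingHom]
    congr 1
    exact RingHom.ext_int _ _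
  · rw [ker_toZMod23]
    exact ⟨⟨_, rfl⟩⟩

end prime23

section main

/-- For a prime `p < 67` different from `11` and `23`, `p ^ f ≥ 67` where `f` is the order
of `p` modulo `11`. -/
theorem le_pow_orderOf {p : ℕ} (hp : p.Prime) (hp67 : p < 67) (h11 : p ≠ 11) (h23 : p ≠ 23) :
    67 ≤ p ^ orderOf (p : ZMod 11) := by
  by_contra hlt
  rw [not_le] at hlt
  set f := orderOf (p : ZMod 11) with hf
  have hpow : (p : ZMod 11) ^ f = 1 := pow_orderOf_eq_one _
  have hne : (p : ZMod 11) ≠ 0 := by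
    intro h0
    rw [ZMod.natCast_eq_zero_iff] at h0
    exact h11 ((Nat.prime_dvd_prime_iff_eq (by norm_num) hp).mp h0).symm
  have hfpos : 0 < f := by
    have : Fact (Nat.Prime 11) := ⟨by norm_num⟩
    rw [hf]
    exact orderOf_pos_iff.mpr (isOfFinOrder_iff_pow_eq_one.mpr
      ⟨10, by norm_num, ZMod.pow_card_sub_one_eq_one hne⟩)
  have hf7 : f < 7 := by
    by_contra h7
    rw [not_lt] at h7
    have : 2 ^ 7 ≤ p ^ f :=
      (Nat.pow_le_pow_left hp.two_le 7).trans (Nat.pow_le_pow_right hp.pos h7)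
    omega
  interval_cases f <;> interval_cases p <;> first
    | omega
    | (exfalso; revert hp; norm_num; done)
    | (exfalso; revert hpow; decide)

end main

end Fermat.Agent.S11.PID11

namespace Fermat.Agent.S11

open NumberField Polynomial Ideal Module InfinitePlace Nat Real IsCyclotomicExtension.Rat
open Fermat.Agent.S11.PID11

/-- `ℤ[ζ₁₁]` is a principal ideal domain. -/
theorem pid_eleven (K : Type*) [Field K] [NumberField K] [IsCyclotomicExtension {11} ℚ K] :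
    IsPrincipalIdealRing (𝓞 K) := by
  have : IsGalois ℚ K := IsCyclotomicExtension.isGalois {11} ℚ K
  have h11 : Fact (Nat.Prime 11) := ⟨by norm_num⟩
  have hζ := IsCyclotomicExtension.zeta_spec 11 ℚ K
  apply RingOfIntegers.isPrincipalIdealRing_of_isPrincipal_of_lt_or_isPrincipal_of_mem_primesOver_of_mem_Icc
  intro p hp hpp
  have hM : ⌊(4 / π) ^ nrComplexPlaces K *
      ((finrank ℚ K)! / (finrank ℚ K) ^ (finrank ℚ K) * √|(discr K : ℝ)|)⌋₊ < 67 := by
    rw [Nat.floor_lt (by positivity)]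
    exact_mod_cast minkowski_lt K
  have hp67 : p < 67 := lt_of_le_of_lt (Finset.mem_Icc.mp hp).2 hM
  by_cases hp11 : p = 11
  · subst hp11
    have hK1 : IsCyclotomicExtension {11 ^ (0 + 1)} ℚ K := by simp only [zero_add, pow_one]; infer_instance
    have hζ1 : IsPrimitiveRoot (IsCyclotomicExtension.zeta 11 ℚ K) (11 ^ (0 + 1)) := by simp only [zero_add, pow_one]; exact hζ
    exact ⟨span {hζ1.toInteger - 1},
      ⟨isPrime_span_zeta_sub_one 11 0 hζ1, liesOver_span_zeta_sub_one 11 0 hζ1⟩,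
      Or.inr ⟨⟨_, rfl⟩⟩⟩
  by_cases hp23 : p = 23
  · subst hp23
    obtain ⟨P, hP, hprin⟩ := exists_principal_over_23 hζ
    exact ⟨P, hP, Or.inr hprin⟩
  · have hpF : Fact p.Prime := ⟨hpp⟩
    have hprime : (span {(p : ℤ)}).IsPrime := by
      rw [span_singleton_prime (by exact_mod_cast hpp.ne_zero)]
      exact Nat.prime_iff_prime_int.mp hpp
    obtain ⟨⟨P, hP1, hP2⟩⟩ := (span {(p : ℤ)}).nonempty_primesOver (S := 𝓞 K)
    refine ⟨P, ⟨hP1, hP2⟩, Or.inl ?_⟩
    have hnd : ¬ p ∣ 11 := by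
      intro h
      exact hp11 ((Nat.prime_dvd_prime_iff_eq hpp (by norm_num)).mp h)
    rw [inertiaDeg_eq_of_not_dvd p K P hnd]
    exact lt_of_lt_of_le hM (le_pow_orderOf hpp hp67 hp11 hp23)

end Fermat.Agent.S11
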