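import Fermat.Agent.Lib.KummerUnits
import Fermat.Agent.Lib.KummerLogDeriv

/-!
Kummer's lemma for `p = 11`: explicit independence of the cyclotomic units
`ζ, 1 + ζ, .., 1 + ζ + .. + ζ ^ 4` modulo rational integers mod `11`.
(file produced by a small script, generic in `p`)
-/

set_option autoImplicit false

namespace Fermat.Agent.S11

open NumberField Polynomial Fermat.Agent.Lib.KummerDefs Fermat.Agent.Lib.KummerUnits
  Fermat.Agent.Lib.KummerLogDeriv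

/-- The polynomials `1 + X` and `((1 + X) ^ a - 1) / X` for `a = 2, .., 5`, expanded. -/
noncomputable def hpoly (R : Type*) [CommRing R] : Fin 5 → R[X] :=
  ![1 + X,
    2 + X,
    3 + 3 * X + X ^ 2,
    4 + 6 * X + 4 * X ^ 2 + X ^ 3,
    5 + 10 * X + 10 * X ^ 2 + 5 * X ^ 3 + X ^ 4]

theorem logDeriv_expand {R : Type*} [CommRing R] (a : Fin 5 → R) :
    ∑ i, C (a i) * derivative (hpoly R i) * ∏ j ∈ Finset.univ.erase i, hpoly R j =
      C (120 * a 0 + 60 * a 1 + 120 * a 2 + 180 * a 3 + 240 * a 4) +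
      C (600 * a 0 + 330 * a 1 + 680 * a 2 + 1050 * a 3 + 1440 * a 4) * X +
      C (1450 * a 0 + 860 * a 1 + 1810 * a 2 + 2850 * a 3 + 3980 * a 4) * X ^ 2 +
      C (2200 * a 0 + 1395 * a 1 + 2980 * a 2 + 4745 * a 3 + 6676 * a 4) * X ^ 3 +
      C (2299 * a 0 + 1552 * a 1 + 3349 * a 2 + 5356 * a 3 + 7524 * a 4) * X ^ 4 +
      C (1717 * a 0 + 1232 * a 1 + 2673 * a 2 + 4268 * a 3 + 5950 * a 4) * X ^ 5 +
      C (923 * a 0 + 704 * a 1 + 1528 * a 2 + 2422 * a 3 + 3341 * a 4) * X ^ 6 +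
      C (351 * a 0 + 285 * a 1 + 615 * a 2 + 963 * a 3 + 1314 * a 4) * X ^ 7 +
      C (90 * a 0 + 78 * a 1 + 166 * a 2 + 256 * a 3 + 346 * a 4) * X ^ 8 +
      C (14 * a 0 + 13 * a 1 + 27 * a 2 + 41 * a 3 + 55 * a 4) * X ^ 9 +
      C (1 * a 0 + 1 * a 1 + 2 * a 2 + 3 * a 3 + 4 * a 4) * X ^ 10 := by
  have e0 : (Finset.univ.erase (0 : Fin 5)) = {1, 2, 3, 4} := by decide
  have e1 : (Finset.univ.erase (1 : Fin 5)) = {0, 2, 3, 4} := by decide
  have e2 : (Finset.univ.erase (2 : Fin 5)) = {0, 1, 3, 4} := by decide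
  have e3 : (Finset.univ.erase (3 : Fin 5)) = {0, 1, 2, 4} := by decide
  have e4 : (Finset.univ.erase (4 : Fin 5)) = {0, 1, 2, 3} := by decide
  rw [Fin.sum_univ_five, e0, e1, e2, e3, e4]
  simp [hpoly, Finset.prod_insert, derivative_pow]
  simp only [map_ofNat C]
  ring

theorem coeff_expand {R : Type*} [CommRing R] (b0 b1 b2 b3 b4 b5 b6 b7 b8 b9 b10 : R) (d : ℕ) :
    (C b0 + C b1 * X + C b2 * X ^ 2 + C b3 * X ^ 3 + C b4 * X ^ 4 + C b5 * X ^ 5 + C b6 * X ^ 6 + C b7 * X ^ 7 + C b8 * X ^ 8 + C b9 * X ^ 9 + C b10 * X ^ 10 : R[X]).coeff d =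
      (if d = 0 then b0 else 0) + (if d = 1 then b1 else 0) + (if d = 2 then b2 else 0) + (if d = 3 then b3 else 0) + (if d = 4 then b4 else 0) + (if d = 5 then b5 else 0) + (if d = 6 then b6 else 0) + (if d = 7 then b7 else 0) + (if d = 8 then b8 else 0) + (if d = 9 then b9 else 0) + (if d = 10 then b10 else 0) := by
  simp only [coeff_add, coeff_C_mul, coeff_X_pow, coeff_X, coeff_C, mul_ite, mul_one, mul_zero]
  simp only [eq_comm]

theorem hpoly_coeff_zero_ne (i : Fin 5) : (hpoly (ZMod 11) i).coeff 0 ≠ 0 := by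
  fin_cases i <;> simp [hpoly] <;> decide

theorem core [Fact (Nat.Prime 11)] (e : Fin 5 → ℕ) (c : ZMod 11)
    (hd : (X : (ZMod 11)[X]) ^ 10 ∣ ∏ i, hpoly (ZMod 11) i ^ e i - C c) : ∀ i, 11 ∣ e i := by
  have h0 := hpoly_coeff_zero_ne
  have hS := X_pow_dvd_logDeriv (hpoly (ZMod 11)) h0 e c (k := 9) hd
  rw [logDeriv_expand (fun i => (e i : ZMod 11)), X_pow_dvd_iff] at hS
  have c0 := hS 0 (by norm_num)
  have c1 := hS 1 (by norm_num)
  have c3 := hS 3 (by norm_num)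
  have c5 := hS 5 (by norm_num)
  have c7 := hS 7 (by norm_num)
  simp only [coeff_expand] at c0 c1 c3 c5 c7
  norm_num at c0 c1 c3 c5 c7
  have hp : ((11 : ℕ) : ZMod 11) = 0 := ZMod.natCast_self 11
  push_cast at hp
  intro i
  rw [← ZMod.natCast_eq_zero_iff]
  fin_cases i
  · show ((e 0 : ℕ) : ZMod 11) = 0
    linear_combination 5 * c1 + 10 * c3 + 6 * c5 + 2 * c7 - (3273 * (e 0 : ZMod 11) + 2142 * (e 1 : ZMod 11) + 4588 * (e 2 : ZMod 11) + 7294 * (e 3 : ZMod 11) + 10208 * (e 4 : ZMod 11)) * hp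
  · show ((e 1 : ℕ) : ZMod 11) = 0
    linear_combination 8 * c0 + 3 * c1 + 9 * c3 + 10 * c7 - (2370 * (e 0 : ZMod 11) + 1534 * (e 1 : ZMod 11) + 3270 * (e 2 : ZMod 11) + 5175 * (e 3 : ZMod 11) + 7224 * (e 4 : ZMod 11)) * hp
  · show ((e 2 : ℕ) : ZMod 11) = 0
    linear_combination 1 * c0 + 10 * c1 + 5 * c3 + 2 * c5 + 6 * c7 - (2060 * (e 0 : ZMod 11) + 1319 * (e 1 : ZMod 11) + 2805 * (e 2 : ZMod 11) + 4429 * (e 3 : ZMod 11) + 6164 * (e 4 : ZMod 11)) * hp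
  · show ((e 3 : ℕ) : ZMod 11) = 0
    linear_combination 7 * c0 + 8 * c1 + 3 * c3 + 10 * c5 + 7 * c7 - (2897 * (e 0 : ZMod 11) + 1960 * (e 1 : ZMod 11) + 4205 * (e 2 : ZMod 11) + 6665 * (e 3 : ZMod 11) + 9266 * (e 4 : ZMod 11)) * hp
  · show ((e 4 : ℕ) : ZMod 11) = 0
    linear_combination 5 * c1 + 10 * c3 + 5 * c5 + 2 * c7 - (3117 * (e 0 : ZMod 11) + 2030 * (e 1 : ZMod 11) + 4345 * (e 2 : ZMod 11) + 6906 * (e 3 : ZMod 11) + 9667 * (e 4 : ZMod 11)) * hp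

theorem hpoly_map (R : Type*) [CommRing R] (i : Fin 5) :
    (hpoly ℤ i).map (Int.castRingHom R) = hpoly R i := by
  fin_cases i <;> simp [hpoly]

theorem kummerLemma_eleven (K : Type*) [Field K] [NumberField K]
    [IsCyclotomicExtension {11} ℚ K] : KummerLemma 11 K := by
  have : Fact (Nat.Prime 11) := ⟨by norm_num⟩
  have hζ := IsCyclotomicExtension.zeta_spec 11 ℚ K
  have hzp : IsPrimitiveRoot hζ.toInteger 11 := hζ.toInteger_isPrimitiveRoot
  let η : Fin 5 → (𝓞 K)ˣ :=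
    ![(hzp.isUnit (by norm_num)).unit,
      (hzp.geom_sum_isUnit (j := 2) (by norm_num) (by norm_num)).unit,
      (hzp.geom_sum_isUnit (j := 3) (by norm_num) (by norm_num)).unit,
      (hzp.geom_sum_isUnit (j := 4) (by norm_num) (by norm_num)).unit,
      (hzp.geom_sum_isUnit (j := 5) (by norm_num) (by norm_num)).unit]
  have hη : ∀ i, (η i : 𝓞 K) = aeval (hζ.toInteger - 1) (hpoly ℤ i) := by
    intro i
    fin_cases i <;> simp [η, hpoly, Finset.sum_range_succ, map_ofNat] <;> ring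
  refine kummerLemma_of_independent (n := 5) (by norm_num) η ?_
  rintro e ⟨m, hm⟩
  have h1 : ((∏ i, η i ^ e i : (𝓞 K)ˣ) : 𝓞 K) - (m : 𝓞 K) =
      aeval (hζ.toInteger - 1) (∏ i, hpoly ℤ i ^ e i - C m) := by
    simp [Units.coe_prod, hη, map_prod]
  rw [h1] at hm
  have h2 := X_pow_dvd_map_of_dvd_aeval hζ _ hm
  have h3 : (∏ i, hpoly ℤ i ^ e i - C m).map (Int.castRingHom (ZMod 11)) =
      ∏ i, hpoly (ZMod 11) i ^ e i - C (m : ZMod 11) := by
    simp [Polynomial.map_prod, hpoly_map]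
  rw [h3] at h2
  exact core e _ h2

end Fermat.Agent.S11
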